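/-
M59 / leaf 4 [TOR-SURJ], cell (4) "TauConj" of helper24's [TAU-INV] plan (written by helper16;
prefix `m59mz_`, namespace `Fermat.Agent.M59`).  Mathlib + `s44mh_conj` (S44/Mono/SheetAbs) only.

**Conjugacy of valuation subrings under an involution.**  `E` a field, `τ` a ring automorphism of
`E` with `τ ∘ τ = id`, `V V'` valuation subrings of `E` (ANY rank, no finiteness or separability
hypothesis) which contain the same `τ`-fixed elements.  Then `V' = V` or `V' = τ⁻¹ V`: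

* `m59mz_valConj  : (∀ z, z ∈ V' ↔ z ∈ V) ∨ (∀ z, z ∈ V' ↔ τ z ∈ V)`;
* `m59mz_valConj_comap : V' = V ∨ V' = V.comap (τ : E →+* E)`.

Proof: `BY := V ∩ τ⁻¹ V` is a `τ`-stable subring, integral over `A₀ := V ∩ E^τ` (`z` is a root of
`X² − (z + τ z) X + z · τ z`), it only depends on `V ∩ E^τ`, and every valuation subring `W` with
`W ∩ τ⁻¹ W = BY` is the localisation of `BY` at `𝔪_W ∩ BY` (`m59mz_vc_loc`: for `x ∈ W` with
`τ x ∉ W`, `σ := −(1 + x (τ x)⁻¹)⁻¹` is a unit of `W`, `σ, σ x ∈ BY`).  `s44mh_conj` (`n = 2`)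
makes the primes `𝔪_V ∩ BY`, `𝔪_V' ∩ BY` conjugate.
-/
import Mathlib
import Fermat.Agent.S44.Mono.SheetAbs

set_option autoImplicit false
set_option linter.unusedSectionVars false
set_option linter.unusedVariables false
set_option linter.style.haveILetI false
set_option linter.unusedSimpArgs false

namespace Fermat.Agent.M59

open Fermat.Agent.S44 Polynomial

variable {E : Type*} [Field E]

/-- `a ∈ 𝔪_W ↔ a = 0 ∨ a⁻¹ ∉ W`. -/
theorem m59mz_vc_nonunits_iff (W : ValuationSubring E) (a : E) :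
    a ∈ W.nonunits ↔ a = 0 ∨ a⁻¹ ∉ W := by
  rw [ValuationSubring.mem_nonunits_iff]
  constructor
  · intro h
    by_cases ha : a = 0
    · exact Or.inl ha
    · refine Or.inr fun hinv => ?_
      have h1 : W.valuation a⁻¹ ≤ 1 := (ValuationSubring.valuation_le_one_iff W _).2 hinv
      have h2 : W.valuation a * W.valuation a⁻¹ = 1 := by
        rw [← map_mul, mul_inv_cancel₀ ha, map_one]
      have h3 : W.valuation a * W.valuation a⁻¹ < 1 := by
        calc W.valuation a * W.valuation a⁻¹ ≤ W.valuation a * 1 := by gcongr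
          _ = W.valuation a := mul_one _
          _ < 1 := h
      exact absurd h2 (ne_of_lt h3)
  · rintro (rfl | h)
    · rw [map_zero]; exact zero_lt_one
    · by_contra hlt
      rw [not_lt] at hlt
      apply h
      have ha : a ≠ 0 := by
        rintro rfl
        rw [map_zero] at hlt
        exact absurd hlt (not_le.2 zero_lt_one)
      rw [← ValuationSubring.valuation_le_one_iff, map_inv₀]
      exact inv_le_one_of_one_le₀ hlt

/-- a root of `X² − s X + t`, `s t ∈ W`, lies in `W`. -/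
theorem m59mz_vc_mem_of_sym (W : ValuationSubring E) {z z' : E} (hs : z + z' ∈ W)
    (ht : z * z' ∈ W) : z ∈ W := by
  by_contra hz
  have hinv : z⁻¹ ∈ W := (W.mem_or_inv_mem z).resolve_left hz
  have hz0 : z ≠ 0 := by
    rintro rfl
    exact hz W.zero_mem
  have : z = (z + z') - (z * z') * z⁻¹ := by
    field_simp
    ring
  rw [this] at hz
  exact hz (sub_mem hs (W.mul_mem _ _ ht hinv))

section

variable (τ : E ≃+* E) (hτ : ∀ z, τ (τ z) = z)

/-- `A₀ := V ∩ E^τ`. -/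
def m59mz_vcA (V : ValuationSubring E) : Subring E where
  carrier := {z | z ∈ V ∧ τ z = z}
  mul_mem' := fun ha hb => ⟨V.mul_mem _ _ ha.1 hb.1, by rw [map_mul, ha.2, hb.2]⟩
  one_mem' := ⟨V.one_mem, map_one τ⟩
  add_mem' := fun ha hb => ⟨V.add_mem _ _ ha.1 hb.1, by rw [map_add, ha.2, hb.2]⟩
  zero_mem' := ⟨V.zero_mem, map_zero τ⟩
  neg_mem' := fun ha => ⟨V.neg_mem _ ha.1, by rw [map_neg, ha.2]⟩

/-- `BY := V ∩ τ⁻¹ V`. -/
def m59mz_vcB (V : ValuationSubring E) : Subring E where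
  carrier := {z | z ∈ V ∧ τ z ∈ V}
  mul_mem' := fun ha hb => ⟨V.mul_mem _ _ ha.1 hb.1, by rw [map_mul]; exact V.mul_mem _ _ ha.2 hb.2⟩
  one_mem' := ⟨V.one_mem, by rw [map_one]; exact V.one_mem⟩
  add_mem' := fun ha hb => ⟨V.add_mem _ _ ha.1 hb.1, by rw [map_add]; exact V.add_mem _ _ ha.2 hb.2⟩
  zero_mem' := ⟨V.zero_mem, by rw [map_zero]; exact V.zero_mem⟩
  neg_mem' := fun ha => ⟨V.neg_mem _ ha.1, by rw [map_neg]; exact V.neg_mem _ ha.2⟩

theorem m59mz_vcA_mem (V : ValuationSubring E) (z : E) :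
    z ∈ m59mz_vcA τ V ↔ z ∈ V ∧ τ z = z := Iff.rfl

theorem m59mz_vcB_mem (V : ValuationSubring E) (z : E) :
    z ∈ m59mz_vcB τ V ↔ z ∈ V ∧ τ z ∈ V := Iff.rfl

theorem m59mz_vcA_le (V : ValuationSubring E) : m59mz_vcA τ V ≤ m59mz_vcB τ V := by
  intro z hz
  exact ⟨hz.1, by rw [hz.2]; exact hz.1⟩

include hτ in
/-- `BY` only depends on the `τ`-fixed part of `V`. -/
theorem m59mz_vcB_mono {V V' : ValuationSubring E} (h : ∀ z, τ z = z → z ∈ V → z ∈ V') {z : E}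
    (hz : z ∈ m59mz_vcB τ V) : z ∈ m59mz_vcB τ V' := by
  have hs : z + τ z ∈ V' := h _ (by rw [map_add, hτ, add_comm]) (V.add_mem _ _ hz.1 hz.2)
  have ht : z * τ z ∈ V' := h _ (by rw [map_mul, hτ, mul_comm]) (V.mul_mem _ _ hz.1 hz.2)
  refine ⟨m59mz_vc_mem_of_sym V' hs ht, m59mz_vc_mem_of_sym V' (z' := z) ?_ ?_⟩
  · rw [add_comm]; exact hs
  · rw [mul_comm]; exact ht

include hτ in
/-- **the localisation lemma**: every `x ∈ W` is `b / σ` with `b, σ ∈ W ∩ τ⁻¹ W`, `σ` a unit of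
`W`. -/
theorem m59mz_vc_loc (W : ValuationSubring E) {x : E} (hx : x ∈ W) :
    ∃ σ b : E, σ ∈ m59mz_vcB τ W ∧ b ∈ m59mz_vcB τ W ∧ σ⁻¹ ∈ W ∧ σ ≠ 0 ∧ σ * x = b := by
  by_cases hx' : τ x ∈ W
  · exact ⟨1, x, (m59mz_vcB τ W).one_mem, ⟨hx, hx'⟩, by rw [inv_one]; exact W.one_mem,
      one_ne_zero, one_mul x⟩
  · -- `y := (τ x)⁻¹ ∈ 𝔪_W`
    have hx'0 : τ x ≠ 0 := by
      intro h0
      rw [h0] at hx'
      exact hx' W.zero_mem
    have hx0 : x ≠ 0 := by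
      rintro rfl
      exact hx'0 (map_zero τ)
    have hy : (τ x)⁻¹ ∈ W := (W.mem_or_inv_mem (τ x)).resolve_left hx'
    have hyn : (τ x)⁻¹ ∈ W.nonunits := by
      rw [m59mz_vc_nonunits_iff, inv_inv]
      exact Or.inr hx'
    have hxyn : x * (τ x)⁻¹ ∈ W.nonunits := by
      rw [ValuationSubring.mem_nonunits_iff] at hyn ⊢
      rw [map_mul]
      calc W.valuation x * W.valuation (τ x)⁻¹ ≤ 1 * W.valuation (τ x)⁻¹ := by
            gcongr
            exact (ValuationSubring.valuation_le_one_iff W _).2 hx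
        _ = W.valuation (τ x)⁻¹ := one_mul _
        _ < 1 := hyn
    have hxy : x * (τ x)⁻¹ ∈ W := W.mul_mem _ _ hx hy
    -- `u := 1 + x y` is a unit of `W`
    have hu : (1 + x * (τ x)⁻¹) ∈ W := W.add_mem _ _ W.one_mem hxy
    have huv : W.valuation (1 + x * (τ x)⁻¹) = 1 := by
      have h1 : W.valuation (x * (τ x)⁻¹) < W.valuation (1 : E) := by
        rw [map_one]
        exact (ValuationSubring.mem_nonunits_iff W).1 hxyn
      rw [Valuation.map_add_eq_of_lt_left _ h1, map_one]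
    have hu0 : (1 + x * (τ x)⁻¹) ≠ 0 := by
      intro h0
      rw [h0, map_zero] at huv
      exact zero_ne_one huv
    have huinv : (1 + x * (τ x)⁻¹)⁻¹ ∈ W := by
      rw [← ValuationSubring.valuation_le_one_iff, map_inv₀, huv, inv_one]
    -- `τ σ`
    have hτu : τ (1 + x * (τ x)⁻¹)⁻¹ = x * (τ x)⁻¹ * (1 + x * (τ x)⁻¹)⁻¹ := by
      rw [map_inv₀, map_add, map_one, map_mul, map_inv₀, hτ]
      field_simp
      ring
    refine ⟨-(1 + x * (τ x)⁻¹)⁻¹, -(x * (1 + x * (τ x)⁻¹)⁻¹), ⟨W.neg_mem _ huinv, ?_⟩,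
      ⟨W.neg_mem _ (W.mul_mem _ _ hx huinv), ?_⟩, ?_, neg_ne_zero.2 (inv_ne_zero hu0), by ring⟩
    · rw [map_neg, hτu]
      exact W.neg_mem _ (W.mul_mem _ _ hxy huinv)
    · rw [map_neg, map_mul, hτu]
      have : τ x * (x * (τ x)⁻¹ * (1 + x * (τ x)⁻¹)⁻¹) = x * (1 + x * (τ x)⁻¹)⁻¹ := by
        field_simp
      rw [this]
      exact W.neg_mem _ (W.mul_mem _ _ hx huinv)
    · rw [inv_neg, inv_inv]
      exact W.neg_mem _ hu

include hτ in
/-- `τ` restricted to `BY`. -/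
def m59mz_vcRho (V : ValuationSubring E) : m59mz_vcB τ V →+* m59mz_vcB τ V where
  toFun z := ⟨τ z.1, z.2.2, by rw [hτ]; exact z.2.1⟩
  map_one' := Subtype.ext (map_one τ)
  map_mul' := fun a b => Subtype.ext (map_mul τ a.1 b.1)
  map_zero' := Subtype.ext (map_zero τ)
  map_add' := fun a b => Subtype.ext (map_add τ a.1 b.1)

/-- the inclusion `BY → W` for a valuation subring `W ⊇ BY`. -/
def m59mz_vcIncl (V W : ValuationSubring E) (hW : ∀ z ∈ m59mz_vcB τ V, z ∈ W) :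
    m59mz_vcB τ V →+* W where
  toFun z := ⟨z.1, hW z.1 z.2⟩
  map_one' := rfl
  map_mul' := fun _ _ => rfl
  map_zero' := rfl
  map_add' := fun _ _ => rfl

theorem m59mz_vcIncl_mem (V W : ValuationSubring E) (hW : ∀ z ∈ m59mz_vcB τ V, z ∈ W)
    (z : m59mz_vcB τ V) :
    z ∈ (IsLocalRing.maximalIdeal ↥W).comap (m59mz_vcIncl τ V W hW) ↔ z.1 ∈ W.nonunits := by
  rw [Ideal.mem_comap, ValuationSubring.mem_nonunits_iff_exists_mem_maximalIdeal]
  constructor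
  · intro h
    exact ⟨hW z.1 z.2, h⟩
  · rintro ⟨_, h⟩
    exact h

end

/-- **conjugacy of valuation subrings under an involution** (any rank). -/
theorem m59mz_valConj (τ : E ≃+* E) (hτ : ∀ z, τ (τ z) = z) (V V' : ValuationSubring E)
    (h : ∀ z, τ z = z → (z ∈ V ↔ z ∈ V')) :
    (∀ z, z ∈ V' ↔ z ∈ V) ∨ (∀ z, z ∈ V' ↔ τ z ∈ V) := by
  classical
  -- `BY(V) = BY(V')`
  have hB : ∀ z, z ∈ m59mz_vcB τ V ↔ z ∈ m59mz_vcB τ V' := fun z =>
    ⟨m59mz_vcB_mono τ hτ (fun w hw => (h w hw).1), m59mz_vcB_mono τ hτ (fun w hw => (h w hw).2)⟩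
  have hBV : ∀ z ∈ m59mz_vcB τ V, z ∈ V := fun z hz => hz.1
  have hBV' : ∀ z ∈ m59mz_vcB τ V, z ∈ V' := fun z hz => ((hB z).1 hz).1
  -- the algebra `A₀ → BY`
  letI : Algebra (m59mz_vcA τ V) (m59mz_vcB τ V) :=
    (Subring.inclusion (m59mz_vcA_le τ V)).toAlgebra
  have halg : ∀ a : m59mz_vcA τ V,
      ((algebraMap (m59mz_vcA τ V) (m59mz_vcB τ V) a : m59mz_vcB τ V) : E) = (a : E) :=
    fun a => rfl
  -- integrality
  haveI : Algebra.IsIntegral (m59mz_vcA τ V) (m59mz_vcB τ V) := by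
    refine ⟨fun z => ?_⟩
    have hsA : (z : E) + τ z ∈ m59mz_vcA τ V :=
      ⟨V.add_mem _ _ z.2.1 z.2.2, by rw [map_add, hτ, add_comm]⟩
    have htA : (z : E) * τ z ∈ m59mz_vcA τ V :=
      ⟨V.mul_mem _ _ z.2.1 z.2.2, by rw [map_mul, hτ, mul_comm]⟩
    refine ⟨X ^ 2 + (C (-(⟨_, hsA⟩ : m59mz_vcA τ V)) * X + C (⟨_, htA⟩ : m59mz_vcA τ V)),
      Polynomial.monic_X_pow_add (lt_of_le_of_lt (Polynomial.degree_linear_le) (by norm_num)), ?_⟩
    rw [eval₂_add, eval₂_add, eval₂_mul, eval₂_pow, eval₂_X, eval₂_C, eval₂_C]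
    apply Subtype.ext
    push_cast
    rw [halg, halg]
    simp only [NegMemClass.coe_neg, ZeroMemClass.coe_zero]
    ring
  -- the involution on `BY`
  have hρ2 : ∀ z : m59mz_vcB τ V, (⇑(m59mz_vcRho τ hτ V))^[2] z = z := by
    intro z
    apply Subtype.ext
    exact hτ z.1
  have hρA : ∀ a : m59mz_vcA τ V, m59mz_vcRho τ hτ V (algebraMap _ _ a) = algebraMap _ _ a := by
    intro a
    apply Subtype.ext
    exact a.2.2
  have hfix : ∀ z : m59mz_vcB τ V, m59mz_vcRho τ hτ V z = z →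
      z ∈ (algebraMap (m59mz_vcA τ V) (m59mz_vcB τ V)).range := by
    intro z hz
    have hz' : τ z.1 = z.1 := congrArg Subtype.val hz
    exact ⟨⟨z.1, z.2.1, hz'⟩, Subtype.ext rfl⟩
  -- the two primes
  set P : Ideal (m59mz_vcB τ V) :=
    (IsLocalRing.maximalIdeal ↥V).comap (m59mz_vcIncl τ V V hBV) with hP
  set Q : Ideal (m59mz_vcB τ V) :=
    (IsLocalRing.maximalIdeal ↥V').comap (m59mz_vcIncl τ V V' hBV') with hQ
  haveI : P.IsPrime := Ideal.comap_isPrime _ _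
  haveI : Q.IsPrime := Ideal.comap_isPrime _ _
  have hmemP : ∀ z : m59mz_vcB τ V, z ∈ P ↔ z.1 ∈ V.nonunits :=
    fun z => m59mz_vcIncl_mem τ V V hBV z
  have hmemQ : ∀ z : m59mz_vcB τ V, z ∈ Q ↔ z.1 ∈ V'.nonunits :=
    fun z => m59mz_vcIncl_mem τ V V' hBV' z
  have hPQ : P.comap (algebraMap (m59mz_vcA τ V) (m59mz_vcB τ V)) =
      Q.comap (algebraMap (m59mz_vcA τ V) (m59mz_vcB τ V)) := by
    ext a
    show algebraMap (m59mz_vcA τ V) (m59mz_vcB τ V) a ∈ P ↔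
      algebraMap (m59mz_vcA τ V) (m59mz_vcB τ V) a ∈ Q
    rw [hmemP, hmemQ, halg, m59mz_vc_nonunits_iff, m59mz_vc_nonunits_iff]
    have : τ (a : E)⁻¹ = (a : E)⁻¹ := by rw [map_inv₀, a.2.2]
    rw [h _ this]
  obtain ⟨j, hj, hconj⟩ := s44mh_conj (A := m59mz_vcA τ V) (m59mz_vcRho τ hτ V) (n := 2)
    (by norm_num) hρ2 hρA hfix P Q hPQ
  -- units of `W` inside `BY`
  have hunit : ∀ (W : ValuationSubring E) (σ : E), σ ∈ W → σ ≠ 0 → σ ∉ W.nonunits → σ⁻¹ ∈ W := by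
    intro W σ _ h0 hn
    rw [m59mz_vc_nonunits_iff, not_or, not_not] at hn
    exact hn.2
  have hnon : ∀ (W : ValuationSubring E) (σ : E), σ ≠ 0 → σ⁻¹ ∈ W → σ ∉ W.nonunits := by
    intro W σ h0 hinv hn
    rw [m59mz_vc_nonunits_iff] at hn
    rcases hn with hn | hn
    · exact h0 hn
    · exact hn hinv
  interval_cases j
  · -- `Q = P`
    left
    have hQP : ∀ z : m59mz_vcB τ V, z.1 ∈ V'.nonunits ↔ z.1 ∈ V.nonunits := by
      intro z
      rw [← hmemP, ← hmemQ, hconj z]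
      rfl
    intro x
    constructor
    · intro hx
      obtain ⟨σ, b, hσ, hb, hσinv, hσ0, hσx⟩ := m59mz_vc_loc τ hτ V' hx
      have hσB : σ ∈ m59mz_vcB τ V := (hB σ).2 hσ
      have hbB : b ∈ m59mz_vcB τ V := (hB b).2 hb
      have h1 : σ ∉ V.nonunits := by
        rw [← hQP ⟨σ, hσB⟩]
        exact hnon V' σ hσ0 hσinv
      have h2 : σ⁻¹ ∈ V := hunit V σ hσB.1 hσ0 h1
      have : x = σ⁻¹ * b := by
        rw [← hσx, ← mul_assoc, inv_mul_cancel₀ hσ0, one_mul]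
      rw [this]
      exact V.mul_mem _ _ h2 hbB.1
    · intro hx
      obtain ⟨σ, b, hσ, hb, hσinv, hσ0, hσx⟩ := m59mz_vc_loc τ hτ V hx
      have h1 : σ ∉ V'.nonunits := by
        rw [hQP ⟨σ, hσ⟩]
        exact hnon V σ hσ0 hσinv
      have h2 : σ⁻¹ ∈ V' := hunit V' σ (hBV' σ hσ) hσ0 h1
      have : x = σ⁻¹ * b := by
        rw [← hσx, ← mul_assoc, inv_mul_cancel₀ hσ0, one_mul]
      rw [this]
      exact V'.mul_mem _ _ h2 (hBV' b hb)
  · -- `Q = τ⁻¹ P`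
    right
    have hQP : ∀ z : m59mz_vcB τ V, z.1 ∈ V'.nonunits ↔ τ z.1 ∈ V.nonunits := by
      intro z
      rw [← hmemQ, hconj z, hmemP]
      rfl
    have hτB : ∀ z, z ∈ m59mz_vcB τ V → τ z ∈ m59mz_vcB τ V := fun z hz =>
      ⟨hz.2, by rw [hτ]; exact hz.1⟩
    have hτ0 : ∀ z : E, z ≠ 0 → τ z ≠ 0 := fun z hz => (map_ne_zero τ).2 hz
    intro x
    constructor
    · intro hx
      obtain ⟨σ, b, hσ, hb, hσinv, hσ0, hσx⟩ := m59mz_vc_loc τ hτ V' hx
      have hσB : σ ∈ m59mz_vcB τ V := (hB σ).2 hσ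
      have hbB : b ∈ m59mz_vcB τ V := (hB b).2 hb
      have h1 : τ σ ∉ V.nonunits := by
        rw [← hQP ⟨σ, hσB⟩]
        exact hnon V' σ hσ0 hσinv
      have h2 : (τ σ)⁻¹ ∈ V := hunit V (τ σ) hσB.2 (hτ0 σ hσ0) h1
      have : τ x = (τ σ)⁻¹ * τ b := by
        rw [← hσx, map_mul, ← mul_assoc, inv_mul_cancel₀ (hτ0 σ hσ0), one_mul]
      rw [this]
      exact V.mul_mem _ _ h2 hbB.2
    · intro hx
      obtain ⟨σ, b, hσ, hb, hσinv, hσ0, hσx⟩ := m59mz_vc_loc τ hτ V hx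
      have h1 : τ σ ∉ V'.nonunits := by
        rw [hQP ⟨τ σ, hτB σ hσ⟩]
        show τ (τ σ) ∉ V.nonunits
        rw [hτ]
        exact hnon V σ hσ0 hσinv
      have h2 : (τ σ)⁻¹ ∈ V' := hunit V' (τ σ) (hBV' _ (hτB σ hσ)) (hτ0 σ hσ0) h1
      have : x = (τ σ)⁻¹ * τ b := by
        rw [← hσx, map_mul, hτ, ← mul_assoc, inv_mul_cancel₀ (hτ0 σ hσ0), one_mul]
      rw [this]
      exact V'.mul_mem _ _ h2 (hBV' _ (hτB b hb))

/-- **conjugacy, `comap` form**: `V' = V` or `V' = V.comap τ`. -/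
theorem m59mz_valConj_comap (τ : E ≃+* E) (hτ : ∀ z, τ (τ z) = z) (V V' : ValuationSubring E)
    (h : ∀ z, τ z = z → (z ∈ V ↔ z ∈ V')) :
    V' = V ∨ V' = V.comap (τ : E →+* E) := by
  rcases m59mz_valConj τ hτ V V' h with h1 | h1
  · left
    ext z
    exact h1 z
  · right
    ext z
    rw [ValuationSubring.mem_comap]
    exact h1 z

end Fermat.Agent.M59
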