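/-
M59 / leaf 4 [TOR-SURJ], generic half of cell (5) "TauRatio" of helper24's [TAU-INV] plan (written
by helper16; prefix `m59mz_`, namespace `Fermat.Agent.M59`).

TRANSPORT OF THE LOCAL RATIO ALONG AN AUTOMORPHISM OF THE FUNCTION FIELD.  `O` a commutative ring,
`E` a field, `B ⊆ E` an `O`-subalgebra with fraction field `E` (a chart), `σ` a ring automorphism of
`E` fixing the constants `O`.  `𝒱, 𝒱'` valuation subrings of `E` containing `B` with `σ 𝒱 = 𝒱'`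
(`σ z ∈ 𝒱' ↔ z ∈ 𝒱`), `V1, V2 ⊇ B` two `σ`-stable valuation subrings (the branches), `𝔫, 𝔫'` the
centres of `𝒱, 𝒱'` on `B`, `P1, P2` those of `V1, V2`, `P1, P2 ≤ 𝔫, 𝔫'`.  ONE non-formal hypothesis:
`σ B ⊆ B_𝔫'` (`hσB`).  Then

* `m59mz_rc_map_mem`   : `σ (B_𝔫) ⊆ B_𝔫'`;
* `m59mz_rc_mem_map`   : `x ∈ P_W · B_𝔫 ↔ x ∈ 𝔪_W` for every valuation subring `W ⊇ B` whose centre
                          `P_W` lies in `𝔫`;
* **`m59mz_ratio_conj`** : `m59tl_Ratio (𝔫 R) (P1 R) (P2 R) m f (cst c) →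
                          m59tl_Ratio (𝔫' R') (P1 R') (P2 R') m (σ f) (cst' c)`, `c ∈ Oˣ`, ideals and
                          constants written EXACTLY as in `m59t1_RatioAt` (Tor/Defs1.lean);
* `m59mz_rc_chart_loc` : the hypothesis `hσB` for a chart `B = fc_chart O S` (the integral closure of
                          `O[S]`) from `σ s ∈ B_𝔫'` for `s ∈ S` (`B_𝔫'` integrally closed);
                          `m59mz_rc_chart_mem` its abstract form.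
-/
import Mathlib
import Fermat.Agent.M59.SinkB.Tor.Xfer
import Fermat.Agent.SS.Model.TwoPrimes
import Fermat.Agent.SS.Local.Height1
import Fermat.Agent.JT3.FCore.Charts
import Fermat.Agent.M59.Mazur.Val.ValConj

set_option autoImplicit false
set_option linter.unusedSectionVars false
set_option linter.unusedVariables false
set_option linter.style.haveILetI false

namespace Fermat.Agent.M59

open Fermat.Agent.SS Fermat.Agent.S36 Fermat.Agent.JT3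

section Loc

variable {O : Type*} [CommRing O] {E : Type*} [Field E] [Algebra O E] (B : Subalgebra O E)
  [IsFractionRing ↥B E]

/-- an element of `B` outside the centre of `W` is a unit of `W`. -/
theorem m59mz_rc_unit (W : ValuationSubring E) (hBW : ∀ b ∈ B, b ∈ W) {s : ↥B}
    (hs : s ∉ ssm_tp_P B W) : (s : E) ≠ 0 ∧ (s : E)⁻¹ ∈ W := by
  rw [ssm_tp_mem_P hBW, m59mz_vc_nonunits_iff, not_or, not_not] at hs
  exact hs

/-- `B_𝔫 ⊆ W` when the centre of `W` lies in `𝔫`. -/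
theorem m59mz_rc_loc_le (W : ValuationSubring E) (hBW : ∀ b ∈ B, b ∈ W) (𝔫 : Ideal ↥B)
    [𝔫.IsPrime] (hle : ssm_tp_P B W ≤ 𝔫) {x : E} (hx : x ∈ ssl_locSub E 𝔫) : x ∈ W := by
  rw [ssl_mem_locSub] at hx
  obtain ⟨a, s, hs, h⟩ := hx
  obtain ⟨hs0, hsinv⟩ := m59mz_rc_unit B W hBW (fun hm => hs (hle hm))
  have h' : x * (s : E) = (a : E) := h
  have : x = (a : E) * (s : E)⁻¹ := by
    rw [← h', mul_assoc, mul_inv_cancel₀ hs0, mul_one]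
  rw [this]
  exact W.mul_mem _ _ (hBW _ a.2) hsinv

/-- `P_W · B_𝔫 = 𝔪_W ∩ B_𝔫`. -/
theorem m59mz_rc_mem_map (W : ValuationSubring E) (hBW : ∀ b ∈ B, b ∈ W) (𝔫 : Ideal ↥B)
    [𝔫.IsPrime] (hle : ssm_tp_P B W ≤ 𝔫) (x : ↥(ssl_locSub E 𝔫)) :
    x ∈ Ideal.map (algebraMap ↥B ↥(ssl_locSub E 𝔫)) (ssm_tp_P B W) ↔ (x : E) ∈ W.nonunits := by
  rw [IsLocalization.mem_map_algebraMap_iff 𝔫.primeCompl ↥(ssl_locSub E 𝔫)]
  constructor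
  · rintro ⟨⟨a, s⟩, h⟩
    have h' : (x : E) * ((s : ↥B) : E) = ((a : ↥B) : E) := congrArg Subtype.val h
    obtain ⟨hs0, hsinv⟩ := m59mz_rc_unit B W hBW (fun hm => s.2 (hle hm))
    have ha : ((a : ↥B) : E) ∈ W.nonunits := (ssm_tp_mem_P hBW).1 a.2
    have : (x : E) = ((a : ↥B) : E) * ((s : ↥B) : E)⁻¹ := by
      rw [← h', mul_assoc, mul_inv_cancel₀ hs0, mul_one]
    rw [this]
    exact ssm_tp_nonunits_mul W ha hsinv
  · intro hx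
    obtain ⟨a, s, hs, h⟩ := (ssl_mem_locSub 𝔫 (x : E)).1 x.2
    have h' : (x : E) * (s : E) = (a : E) := h
    have ha : a ∈ ssm_tp_P B W := by
      rw [ssm_tp_mem_P hBW, ← h']
      exact ssm_tp_nonunits_mul W hx (hBW _ s.2)
    exact ⟨(⟨a, ha⟩, ⟨s, hs⟩), Subtype.ext h'⟩

end Loc

section Conj

variable {O : Type*} [CommRing O] {E : Type*} [Field E] [Algebra O E] (B : Subalgebra O E)
  [IsFractionRing ↥B E]
  (σ : E ≃+* E)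
  (𝒱 𝒱' : ValuationSubring E) (hB𝒱 : ∀ b ∈ B, b ∈ 𝒱) (hB𝒱' : ∀ b ∈ B, b ∈ 𝒱')
  (hσ𝒱 : ∀ z, σ z ∈ 𝒱' ↔ z ∈ 𝒱)
  (𝔫 𝔫' : Ideal ↥B) [h𝔫 : 𝔫.IsPrime] [h𝔫' : 𝔫'.IsPrime]
  (e𝔫 : 𝔫 = ssm_tp_P B 𝒱) (e𝔫' : 𝔫' = ssm_tp_P B 𝒱')
  (hσB : ∀ b ∈ B, σ b ∈ ssl_locSub E 𝔫')

/-- `σ` maps the maximal ideal of `W` onto that of `W'` when `σ W = W'`. -/
theorem m59mz_rc_nonunits (W W' : ValuationSubring E) (hσW : ∀ z, σ z ∈ W' ↔ z ∈ W) (z : E) :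
    σ z ∈ W'.nonunits ↔ z ∈ W.nonunits := by
  rw [m59mz_vc_nonunits_iff, m59mz_vc_nonunits_iff, ← map_inv₀, hσW, map_eq_zero_iff σ σ.injective]

include hB𝒱 hB𝒱' hσ𝒱 e𝔫 e𝔫' hσB in
/-- `σ (B_𝔫) ⊆ B_𝔫'`. -/
theorem m59mz_rc_map_mem {x : E} (hx : x ∈ ssl_locSub E 𝔫) : σ x ∈ ssl_locSub E 𝔫' := by
  obtain ⟨a, s, hs, h⟩ := (ssl_mem_locSub 𝔫 x).1 hx
  have h' : x * (s : E) = (a : E) := h
  -- `σ s` is a unit of `𝒱'`
  obtain ⟨hs0, hsinv⟩ := m59mz_rc_unit B 𝒱 hB𝒱 (s := s) (by rw [← e𝔫]; exact hs)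
  have hσs0 : σ (s : E) ≠ 0 := (map_ne_zero σ).2 hs0
  have hσsinv : (σ (s : E))⁻¹ ∈ 𝒱' := by
    rw [← map_inv₀, hσ𝒱]
    exact hsinv
  -- `(σ s)⁻¹ ∈ B_𝔫'`
  have hinv : (σ (s : E))⁻¹ ∈ ssl_locSub E 𝔫' := by
    obtain ⟨b, t, ht, hbt⟩ := (ssl_mem_locSub 𝔫' (σ (s : E))).1 (hσB _ s.2)
    have hbt' : σ (s : E) * (t : E) = (b : E) := hbt
    obtain ⟨ht0, htinv⟩ := m59mz_rc_unit B 𝒱' hB𝒱' (s := t) (by rw [← e𝔫']; exact ht)
    have hb0 : (b : E) ≠ 0 := by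
      rw [← hbt']
      exact mul_ne_zero hσs0 ht0
    -- `b` is a unit of `𝒱'`, hence `b ∉ 𝔫'`
    have hb : b ∉ 𝔫' := by
      rw [e𝔫', ssm_tp_mem_P hB𝒱', m59mz_vc_nonunits_iff, not_or, not_not]
      refine ⟨hb0, ?_⟩
      have : (b : E)⁻¹ = (σ (s : E))⁻¹ * (t : E)⁻¹ := by
        rw [← hbt', mul_inv]
      rw [this]
      exact 𝒱'.mul_mem _ _ hσsinv htinv
    rw [ssl_mem_locSub]
    refine ⟨t, b, hb, ?_⟩
    show (σ (s : E))⁻¹ * (b : E) = (t : E)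
    rw [← hbt', ← mul_assoc, inv_mul_cancel₀ hσs0, one_mul]
  have : σ x = σ (a : E) * (σ (s : E))⁻¹ := by
    rw [← h', map_mul, mul_assoc, mul_inv_cancel₀ hσs0, mul_one]
  rw [this]
  exact (ssl_locSub E 𝔫').mul_mem (hσB _ a.2) hinv

/-- `σ` as a ring homomorphism `B_𝔫 → B_𝔫'`. -/
def m59mz_rc_psi (hmem : ∀ x ∈ ssl_locSub E 𝔫, σ x ∈ ssl_locSub E 𝔫') :
    ↥(ssl_locSub E 𝔫) →+* ↥(ssl_locSub E 𝔫') where
  toFun x := ⟨σ x.1, hmem x.1 x.2⟩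
  map_one' := Subtype.ext (map_one σ)
  map_mul' := fun a b => Subtype.ext (map_mul σ a.1 b.1)
  map_zero' := Subtype.ext (map_zero σ)
  map_add' := fun a b => Subtype.ext (map_add σ a.1 b.1)

variable (hσO : ∀ a : O, σ (algebraMap O E a) = algebraMap O E a)
  (V1 V2 : ValuationSubring E) (hB1 : ∀ b ∈ B, b ∈ V1) (hB2 : ∀ b ∈ B, b ∈ V2)
  (hσ1 : ∀ z, σ z ∈ V1 ↔ z ∈ V1) (hσ2 : ∀ z, σ z ∈ V2 ↔ z ∈ V2)
  (h1𝔫 : ssm_tp_P B V1 ≤ 𝔫) (h2𝔫 : ssm_tp_P B V2 ≤ 𝔫)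
  (h1𝔫' : ssm_tp_P B V1 ≤ 𝔫') (h2𝔫' : ssm_tp_P B V2 ≤ 𝔫')

include hB𝒱 hB𝒱' hσ𝒱 e𝔫 e𝔫' hσB hσO hB1 hB2 hσ1 hσ2 h1𝔫 h2𝔫 h1𝔫' h2𝔫' in
/-- **the local ratio is transported by `σ`** (constants of `O` are fixed). -/
theorem m59mz_ratio_conj {m : ℕ} {f : E} (c : Oˣ)
    (h : m59tl_Ratio (Ideal.map (algebraMap ↥B ↥(ssl_locSub E 𝔫)) 𝔫)
      (Ideal.map (algebraMap ↥B ↥(ssl_locSub E 𝔫)) (ssm_tp_P B V1))
      (Ideal.map (algebraMap ↥B ↥(ssl_locSub E 𝔫)) (ssm_tp_P B V2)) m f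
      (Units.map ((algebraMap ↥B ↥(ssl_locSub E 𝔫)).comp (algebraMap O ↥B)).toMonoidHom c)) :
    m59tl_Ratio (Ideal.map (algebraMap ↥B ↥(ssl_locSub E 𝔫')) 𝔫')
      (Ideal.map (algebraMap ↥B ↥(ssl_locSub E 𝔫')) (ssm_tp_P B V1))
      (Ideal.map (algebraMap ↥B ↥(ssl_locSub E 𝔫')) (ssm_tp_P B V2)) m (σ f)
      (Units.map ((algebraMap ↥B ↥(ssl_locSub E 𝔫')).comp (algebraMap O ↥B)).toMonoidHom c) := by
  have hmem : ∀ x ∈ ssl_locSub E 𝔫, σ x ∈ ssl_locSub E 𝔫' := fun x hx =>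
    m59mz_rc_map_mem B σ 𝒱 𝒱' hB𝒱 hB𝒱' hσ𝒱 𝔫 𝔫' e𝔫 e𝔫' hσB hx
  set ψ := m59mz_rc_psi B σ 𝔫 𝔫' hmem with hψ
  have hψcoe : ∀ x : ↥(ssl_locSub E 𝔫), ((ψ x : ↥(ssl_locSub E 𝔫')) : E) = σ (x : E) := fun _ => rfl
  have hφψ : ∀ x : ↥(ssl_locSub E 𝔫),
      (σ : E →+* E) (algebraMap ↥(ssl_locSub E 𝔫) E x) = algebraMap ↥(ssl_locSub E 𝔫') E (ψ x) :=
    fun _ => rfl
  -- the ideals
  have h𝔫le : ssm_tp_P B 𝒱 ≤ 𝔫 := e𝔫 ▸ le_refl _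
  have h𝔫le' : ssm_tp_P B 𝒱' ≤ 𝔫' := e𝔫' ▸ le_refl _
  have key := m59tl_ratio_map (R₁ := ↥(ssl_locSub E 𝔫)) (F₁ := E) (R₂ := ↥(ssl_locSub E 𝔫'))
    (F₂ := E) ψ (σ : E →+* E) hφψ
    (𝔪 := Ideal.map (algebraMap ↥B ↥(ssl_locSub E 𝔫)) 𝔫)
    (𝔮₁ := Ideal.map (algebraMap ↥B ↥(ssl_locSub E 𝔫)) (ssm_tp_P B V1))
    (𝔮₂ := Ideal.map (algebraMap ↥B ↥(ssl_locSub E 𝔫)) (ssm_tp_P B V2))
    (𝔪' := Ideal.map (algebraMap ↥B ↥(ssl_locSub E 𝔫')) 𝔫')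
    (𝔮₁' := Ideal.map (algebraMap ↥B ↥(ssl_locSub E 𝔫')) (ssm_tp_P B V1))
    (𝔮₂' := Ideal.map (algebraMap ↥B ↥(ssl_locSub E 𝔫')) (ssm_tp_P B V2))
    ?_ ?_ ?_ ?_ ?_ h
  · -- the constant
    have hc : Units.map (ψ : ↥(ssl_locSub E 𝔫) →* ↥(ssl_locSub E 𝔫'))
        (Units.map ((algebraMap ↥B ↥(ssl_locSub E 𝔫)).comp (algebraMap O ↥B)).toMonoidHom c) =
        Units.map ((algebraMap ↥B ↥(ssl_locSub E 𝔫')).comp (algebraMap O ↥B)).toMonoidHom c := by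
      apply Units.ext
      apply Subtype.ext
      exact hσO (c : O)
    rw [hc] at key
    exact key
  · intro x hx
    have hx' : x ∈ Ideal.map (algebraMap ↥B ↥(ssl_locSub E 𝔫)) (ssm_tp_P B 𝒱) := by
      rw [← e𝔫]; exact hx
    rw [m59mz_rc_mem_map B 𝒱 hB𝒱 𝔫 h𝔫le] at hx'
    have : ψ x ∈ Ideal.map (algebraMap ↥B ↥(ssl_locSub E 𝔫')) (ssm_tp_P B 𝒱') := by
      rw [m59mz_rc_mem_map B 𝒱' hB𝒱' 𝔫' h𝔫le', hψcoe, m59mz_rc_nonunits σ 𝒱 𝒱' hσ𝒱]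
      exact hx'
    rw [← e𝔫'] at this
    exact this
  · intro x hx
    rw [m59mz_rc_mem_map B V1 hB1 𝔫' h1𝔫', hψcoe, m59mz_rc_nonunits σ V1 V1 hσ1] at hx
    rw [m59mz_rc_mem_map B V1 hB1 𝔫 h1𝔫]
    exact hx
  · intro x hx
    rw [m59mz_rc_mem_map B V1 hB1 𝔫 h1𝔫] at hx
    rw [m59mz_rc_mem_map B V1 hB1 𝔫' h1𝔫', hψcoe, m59mz_rc_nonunits σ V1 V1 hσ1]
    exact hx
  · intro x hx
    rw [m59mz_rc_mem_map B V2 hB2 𝔫' h2𝔫', hψcoe, m59mz_rc_nonunits σ V2 V2 hσ2] at hx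
    rw [m59mz_rc_mem_map B V2 hB2 𝔫 h2𝔫]
    exact hx
  · intro x hx
    rw [m59mz_rc_mem_map B V2 hB2 𝔫 h2𝔫] at hx
    rw [m59mz_rc_mem_map B V2 hB2 𝔫' h2𝔫', hψcoe, m59mz_rc_nonunits σ V2 V2 hσ2]
    exact hx

end Conj

section Chart

variable {O : Type*} [CommRing O] {E : Type*} [Field E] [Algebra O E]

/-- **the hypothesis `hσB` for a chart, abstract form**: `B = fc_chart O S` is the integral closure
of `O[S]`; if `σ` fixes the constants and maps the coordinates `S` into an integrally closed subring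
`R'` of `E` (with fraction field `E`) containing the constants, it maps `B` into `R'`. -/
theorem m59mz_rc_chart_mem (σ : E ≃+* E)
    (hσO : ∀ a : O, σ (algebraMap O E a) = algebraMap O E a) (S : Set E)
    {R0 : Type*} [CommRing R0] [Algebra R0 E]
    (R' : Subalgebra R0 E) [IsIntegrallyClosed ↥R'] [IsFractionRing ↥R' E]
    (hO : ∀ a : O, algebraMap O E a ∈ R') (hS : ∀ s ∈ S, σ s ∈ R') :
    ∀ b ∈ fc_chart O S, σ b ∈ R' := by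
  intro b hb
  rw [fc_mem_chart] at hb
  -- `σ (O[S]) ⊆ R'`
  have hadj : ∀ x ∈ Algebra.adjoin O S, σ x ∈ R' := by
    intro x hx
    induction hx using Algebra.adjoin_induction with
    | mem s hs => exact hS s hs
    | algebraMap a => rw [hσO]; exact hO a
    | add x y _ _ hx hy => rw [map_add]; exact R'.add_mem hx hy
    | mul x y _ _ hx hy => rw [map_mul]; exact R'.mul_mem hx hy
  let φ : ↥(Algebra.adjoin O S) →+* ↥R' :=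
    { toFun := fun x => ⟨σ x.1, hadj x.1 x.2⟩
      map_one' := Subtype.ext (map_one σ)
      map_mul' := fun a b => Subtype.ext (map_mul σ a.1 b.1)
      map_zero' := Subtype.ext (map_zero σ)
      map_add' := fun a b => Subtype.ext (map_add σ a.1 b.1) }
  have hint : IsIntegral ↥R' ((σ : E →+* E) b) :=
    IsIntegral.map_of_comp_eq φ (σ : E →+* E) (RingHom.ext fun x => rfl) hb
  obtain ⟨y, hy⟩ := IsIntegrallyClosed.isIntegral_iff.1 hint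
  have : σ b = (y : E) := hy.symm
  rw [this]
  exact y.2

/-- **the hypothesis `hσB` of `m59mz_ratio_conj` for a chart** `B = fc_chart O S`: it is enough
that `σ` maps the coordinates into the local ring `B_𝔫'`. -/
theorem m59mz_rc_chart_loc (σ : E ≃+* E)
    (hσO : ∀ a : O, σ (algebraMap O E a) = algebraMap O E a) (S : Set E)
    [IsFractionRing ↥(fc_chart O S) E] [IsIntegrallyClosed ↥(fc_chart O S)]
    (𝔫' : Ideal ↥(fc_chart O S)) [𝔫'.IsPrime] (hS : ∀ s ∈ S, σ s ∈ ssl_locSub E 𝔫') :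
    ∀ b ∈ fc_chart O S, σ b ∈ ssl_locSub E 𝔫' := by
  haveI : IsIntegrallyClosed ↥(ssl_locSub E 𝔫') :=
    isIntegrallyClosed_of_isLocalization ↥(ssl_locSub E 𝔫') 𝔫'.primeCompl
      𝔫'.primeCompl_le_nonZeroDivisors
  refine m59mz_rc_chart_mem σ hσO S (ssl_locSub E 𝔫') (fun a => ?_) hS
  have : algebraMap O E a = algebraMap ↥(fc_chart O S) E (algebraMap O ↥(fc_chart O S) a) := rfl
  rw [this]
  exact (ssl_locSub E 𝔫').algebraMap_mem _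

end Chart

end Fermat.Agent.M59
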