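/-
M59 / leaf 4 [TOR-SURJ], Legendre instance of cell (5) "TauRatio" of helper24's [TAU-INV] plan
(helper16; prefix `m59mz_`).

`τ = m59tt_tau L (N' q) h2` the deck involution of the Legendre cover `E = lg_E L (N' q)`
(helper24, Tor/TauDef.lean), `B1 = fc_chart O {λ}` the `λ`-chart.

* `m59mz_tau_lam`      : `τ λ · (λ − 1) = λ`  (`τ λ = λ / (λ − 1)`);
* `m59mz_lam_sub_one_ne_zero` : `λ − 1 ≠ 0`;
* `m59mz_tau_chart_mem`: `τ (B1) ⊆ (B1)_𝔫'` at every point `𝔫' = centre of 𝒱'` with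
                          `(λ − 1)⁻¹ ∈ 𝒱'`;
* **`m59mz_ratioAt_tau`**: `m59t1_RatioAt … m 𝔫 h𝔫 f c → m59t1_RatioAt … m 𝔫' h𝔫' (τ f) c` for
                          `𝔫, 𝔫'` the centres on `B1` of `𝒱`, `𝒱' = τ 𝒱`, `(λ − 1)⁻¹ ∈ 𝒱'`
                          (`m59mz_ratio_conj` + helper4's `m59tv_tau_mem_V1/_V2`).
-/
import Mathlib
import Fermat.Agent.M59.Mazur.Val.RatioConj
import Fermat.Agent.M59.SinkB.Tor.Defs1
import Fermat.Agent.M59.SinkB.Tor.TauGauss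

set_option autoImplicit false
set_option linter.unusedSectionVars false
set_option linter.unusedVariables false
set_option linter.style.haveILetI false
set_option synthInstance.maxHeartbeats 400000
set_option maxHeartbeats 1000000

noncomputable section

namespace Fermat.Agent.M59

open Polynomial ModularCurve AlgebraicCurve IntermediateField IsLocalRing
open Fermat.Agent.JT3 Fermat.Agent.SS Fermat.Agent.S35 Fermat.Agent.S24 Fermat.Agent.S44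
  Fermat.Agent.S36 Fermat.Agent.S28

local notation "Qb" => AlgebraicClosure ℚ

section Lam

variable (L : Type*) [Field L] (N : ℕ) [NeZero N]

/-- `τ₀ t₄ = -16 - t₄` (`2 ≠ 0`). -/
theorem m59mz_tau0_t4 (h2 : (2 : L) ≠ 0) : m59tt_tau0 L (hm_t4 L) = -16 - hm_t4 L := by
  rcases m59tt_tau0_t4 L with h | h
  · exfalso
    -- then `τ₀ λ = λ`
    have h1 := hm_lam_mul L
    have h1' := congrArg (m59tt_tau0 L) h1
    rw [map_mul, map_add, map_ofNat, h] at h1'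
    have h160 := ssm_f4_sixteen_ne_zero h2
    have hne : hm_t4 L + 16 ≠ 0 := by
      intro h0
      rw [h0, mul_zero] at h1
      exact h160 h1.symm
    have hlam : m59tt_tau0 L (hm_lam L) = hm_lam L :=
      mul_right_cancel₀ hne (h1'.trans h1.symm)
    have hc := congrArg (fun z : LaurentSeries L => z.coeff 1) hlam
    simp only [m59tt_tau0_coeff] at hc
    rw [hm_lam_coeff_one, zpow_one, Units.val_neg, Units.val_one, neg_one_mul] at hc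
    have h4 : (32 : L) = 0 := by
      have : (16 : L) + 16 = 0 := by
        nth_rewrite 1 [← hc]
        ring
      rw [← this]
      norm_num
    have h5 : (32 : L) = 2 ^ 5 := by norm_num
    rw [h5] at h4
    exact h2 (pow_eq_zero_iff (by norm_num) |>.1 h4)
  · exact h

/-- `τ₀ λ · (λ − 1) = λ`. -/
theorem m59mz_tau0_lam (h2 : (2 : L) ≠ 0) :
    m59tt_tau0 L (hm_lam L) * (hm_lam L - 1) = hm_lam L := by
  have h1 := hm_lam_mul L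
  have h1' := congrArg (m59tt_tau0 L) h1
  rw [map_mul, map_add, map_ofNat, m59mz_tau0_t4 L h2] at h1'
  -- `τλ · (-t₄) = 16`, `λ (t₄ + 16) = 16`
  have h160 := ssm_f4_sixteen_ne_zero (L := L) h2
  have e1 : m59tt_tau0 L (hm_lam L) * (hm_lam L - 1) * 16 = hm_lam L * 16 := by
    linear_combination (m59tt_tau0 L (hm_lam L)) * h1 + (hm_lam L) * h1'
  exact mul_right_cancel₀ h160 e1

/-- `τ λ · (λ − 1) = λ` in `E`. -/
theorem m59mz_tau_lam (h2 : (2 : L) ≠ 0) :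
    m59tt_tau L N h2 (lg_lamE N) * (lg_lamE N - 1) = (lg_lamE N : lg_E L N) :=
  Subtype.ext (m59mz_tau0_lam L h2)

/-- `λ − 1 ≠ 0`. -/
theorem m59mz_lam_sub_one_ne_zero : (lg_lamE N - 1 : lg_E L N) ≠ 0 := by
  intro h
  have h1 := congrArg (fun z : lg_E L N => (z : LaurentSeries L).coeff 0) h
  have h2 : ((lg_lamE N - 1 : lg_E L N) : LaurentSeries L) = hm_lam L - 1 := rfl
  simp only [h2] at h1
  rw [HahnSeries.coeff_sub, hm_lam_coeff_of_lt L (by norm_num)] at h1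
  have h3 : ((1 : LaurentSeries L)).coeff 0 = 1 := by
    rw [HahnSeries.coeff_one, if_pos rfl]
  rw [h3] at h1
  simp at h1

end Lam

section Inst

variable (A : ValuationSubring Qb) {q : ℕ} [hq : Fact q.Prime] (hA : A.LiesOverPrime q)
  (N' : ℕ) [NeZero N'] [NeZero q] [NeZero (N' * q)] (hq2 : ¬ 2 ∣ q) (hqN' : ¬ q ∣ N')
  (L : IntermediateField ℚ Qb) [NumberField ↥L]
  [IsDiscreteValuationRing ↥(A.comap (algebraMap ↥L Qb))]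
  [CharP (ResidueField ↥(A.comap (algebraMap ↥L Qb))) q]
  {π : ↥(A.comap (algebraMap ↥L Qb))} (hπ : Irreducible π)
  (h2 : (2 : ↥L) ≠ 0)

/-- `τ` fixes the constants of `O`. -/
theorem m59mz_tau_const (a : ↥(A.comap (algebraMap ↥L Qb))) :
    m59tt_tau ↥L (N' * q) h2 (algebraMap ↥(A.comap (algebraMap ↥L Qb)) ↥(lg_E ↥L (N' * q)) a) =
      algebraMap ↥(A.comap (algebraMap ↥L Qb)) ↥(lg_E ↥L (N' * q)) a := by
  haveI := ssm_go_isScalarTower (A.comap (algebraMap ↥L Qb)) (lg_E ↥L (N' * q))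
  rw [IsScalarTower.algebraMap_apply ↥(A.comap (algebraMap ↥L Qb)) ↥L ↥(lg_E ↥L (N' * q))]
  exact (m59tt_tau ↥L (N' * q) h2).commutes _

/-- `τ (B1) ⊆ (B1)_𝔫'` at the points where `λ − 1` is a unit. -/
theorem m59mz_tau_chart_mem (𝒱' : ValuationSubring ↥(lg_E ↥L (N' * q)))
    (hB𝒱' : ∀ b ∈ m59t1_B1 A N' q L, b ∈ 𝒱')
    (𝔫' : Ideal ↥(m59t1_B1 A N' q L)) [h𝔫' : 𝔫'.IsPrime]
    (e𝔫' : 𝔫' = ssm_tp_P (m59t1_B1 A N' q L) 𝒱')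
    (hlam : ((lg_lamE (N' * q) : ↥(lg_E ↥L (N' * q))) - 1)⁻¹ ∈ 𝒱') :
    haveI := (s44ndl_chart_inst (A.comap (algebraMap ↥L Qb)) N' q (L := ↥L)).1
    ∀ b ∈ m59t1_B1 A N' q L,
      (m59tt_tau ↥L (N' * q) h2).toRingEquiv b ∈ ssl_locSub ↥(lg_E ↥L (N' * q)) 𝔫' := by
  haveI := (s44ndl_chart_inst (A.comap (algebraMap ↥L Qb)) N' q (L := ↥L)).1
  haveI := (s44ndl_chart_inst (A.comap (algebraMap ↥L Qb)) N' q (L := ↥L)).2.2
  refine m59mz_rc_chart_loc (m59tt_tau ↥L (N' * q) h2).toRingEquiv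
    (fun a => m59mz_tau_const A N' L h2 a) _ 𝔫' ?_
  intro s hs
  rw [Set.mem_singleton_iff] at hs
  subst hs
  -- `λ, λ − 1 ∈ B1`
  have hlamB : (lg_lamE (N' * q) : ↥(lg_E ↥L (N' * q))) ∈ m59t1_B1 A N' q L :=
    fc_adjoin_le_chart _ (Algebra.subset_adjoin (Set.mem_singleton _))
  have hl1B : (lg_lamE (N' * q) : ↥(lg_E ↥L (N' * q))) - 1 ∈ m59t1_B1 A N' q L :=
    sub_mem hlamB (one_mem _)
  have hne := m59mz_lam_sub_one_ne_zero ↥L (N' * q)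
  -- `λ − 1 ∉ 𝔫'`
  have hnot : (⟨_, hl1B⟩ : ↥(m59t1_B1 A N' q L)) ∉ 𝔫' := by
    rw [e𝔫', ssm_tp_mem_P hB𝒱', m59mz_vc_nonunits_iff, not_or, not_not]
    exact ⟨hne, hlam⟩
  have hτ : (m59tt_tau ↥L (N' * q) h2).toRingEquiv (lg_lamE (N' * q)) =
      (lg_lamE (N' * q) : ↥(lg_E ↥L (N' * q))) *
        ((lg_lamE (N' * q) : ↥(lg_E ↥L (N' * q))) - 1)⁻¹ := by
    rw [eq_mul_inv_iff_mul_eq₀ hne]
    exact m59mz_tau_lam ↥L (N' * q) h2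
  rw [hτ]
  refine (ssl_locSub ↥(lg_E ↥L (N' * q)) 𝔫').mul_mem ?_ ?_
  · exact (ssl_locSub ↥(lg_E ↥L (N' * q)) 𝔫').algebraMap_mem ⟨_, hlamB⟩
  · rw [ssl_mem_locSub]
    refine ⟨1, ⟨_, hl1B⟩, hnot, ?_⟩
    show ((lg_lamE (N' * q) : ↥(lg_E ↥L (N' * q))) - 1)⁻¹ *
      ((lg_lamE (N' * q) : ↥(lg_E ↥L (N' * q))) - 1) = 1
    exact inv_mul_cancel₀ hne

/-- **the toric datum is transported by the deck involution `τ`**: `𝔫, 𝔫'` the centres on the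
`λ`-chart of `𝒱` and `𝒱' = τ 𝒱`, `λ − 1` a unit at `𝔫'`. -/
theorem m59mz_ratioAt_tau (m : ℕ)
    (𝒱 𝒱' : ValuationSubring ↥(lg_E ↥L (N' * q)))
    (hB𝒱 : ∀ b ∈ m59t1_B1 A N' q L, b ∈ 𝒱) (hB𝒱' : ∀ b ∈ m59t1_B1 A N' q L, b ∈ 𝒱')
    (hτ𝒱 : ∀ z, m59tt_tau ↥L (N' * q) h2 z ∈ 𝒱' ↔ z ∈ 𝒱)
    (𝔫 𝔫' : Ideal ↥(m59t1_B1 A N' q L)) (h𝔫 : 𝔫.IsPrime) (h𝔫' : 𝔫'.IsPrime)
    (e𝔫 : 𝔫 = ssm_tp_P (m59t1_B1 A N' q L) 𝒱) (e𝔫' : 𝔫' = ssm_tp_P (m59t1_B1 A N' q L) 𝒱')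
    (hB1 : ∀ b ∈ m59t1_B1 A N' q L, b ∈ ssm_gl_V1 (A.comap (algebraMap ↥L Qb)) hπ N' q)
    (hB2 : ∀ b ∈ m59t1_B1 A N' q L, b ∈ ssm_gl_V2 (A.comap (algebraMap ↥L Qb)) hπ N' q hq2 hqN')
    (h1𝔫 : m59t1_P1 A N' L hπ ≤ 𝔫) (h2𝔫 : m59t1_P2 A N' hq2 hqN' L hπ ≤ 𝔫)
    (h1𝔫' : m59t1_P1 A N' L hπ ≤ 𝔫') (h2𝔫' : m59t1_P2 A N' hq2 hqN' L hπ ≤ 𝔫')
    (hlam : ((lg_lamE (N' * q) : ↥(lg_E ↥L (N' * q))) - 1)⁻¹ ∈ 𝒱')
    (f : ↥(lg_E ↥L (N' * q))) (c : (↥(A.comap (algebraMap ↥L Qb)))ˣ)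
    (h : m59t1_RatioAt A N' hq2 hqN' L hπ m 𝔫 h𝔫 f c) :
    m59t1_RatioAt A N' hq2 hqN' L hπ m 𝔫' h𝔫' (m59tt_tau ↥L (N' * q) h2 f) c := by
  haveI := (s44ndl_chart_inst (A.comap (algebraMap ↥L Qb)) N' q (L := ↥L)).1
  haveI := h𝔫
  haveI := h𝔫'
  unfold m59t1_RatioAt at h ⊢
  exact m59mz_ratio_conj (m59t1_B1 A N' q L) (m59tt_tau ↥L (N' * q) h2).toRingEquiv 𝒱 𝒱' hB𝒱 hB𝒱'
    hτ𝒱 𝔫 𝔫' e𝔫 e𝔫' (m59mz_tau_chart_mem A N' L h2 𝒱' hB𝒱' 𝔫' e𝔫' hlam)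
    (fun a => m59mz_tau_const A N' L h2 a) _ _ hB1 hB2
    (m59tv_tau_mem_V1 (A.comap (algebraMap ↥L Qb)) hπ N' q h2)
    (m59tv_tau_mem_V2 (A.comap (algebraMap ↥L Qb)) hπ N' q hq2 hqN' h2)
    h1𝔫 h2𝔫 h1𝔫' h2𝔫' c h

end Inst

end Fermat.Agent.M59
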