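/-
M59 / leaf 4 [TOR-SURJ], cell [TAU-LAB] of [TAU-INV] (helper16; prefix `m59mz_`).

TWO LABELS OF THE SAME PLACE.  `𝔫, 𝔫'` two crossing points of the `λ`-chart `B1` of the Legendre
model, both labelled (`m59t1_Lab`, Tor/Defs1.lean) by the same place `Q` of `FF_A(N')` with `j̄`
finite at `Q`.  Then `𝔫' = 𝔫`, or the toric datum at `𝔫` is transported to `𝔫'` by the deck
involution `τ = m59tt_tau` of the Legendre cover:

* `m59mz_lam_sub_one_inv_mem` : `λ, j(q²) ∈ W`, `256 ∈ Wˣ` ⟹ `(λ − 1)⁻¹ ∈ W` (Legendre relation);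
* **`m59mz_lab_conj`** : `m59t1_Lab … 𝔫 Q → m59t1_Lab … 𝔫' Q → 𝔫' = 𝔫 ∨ ∀ m f c,
  m59t1_RatioAt … m 𝔫 h𝔫 f c → m59t1_RatioAt … m 𝔫' h𝔫' (τ f) c`.

Input taken as a hypothesis: (2) TauFix `hfix : ∀ z, τ z = z → z ∈ Set.range lg_phiE` (helper24).
Route: the two composite valuation rings `𝒱 = s44ndl_V 𝒲`, `𝒱' = s44ndl_V 𝒲'` contain `B1` and agree
on `φ(lg_F)` (`s44ndl_Ext`, `s44ndl_centre_A`), hence on the `τ`-fixed elements; `m59mz_valConj`;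
`m59mz_ratioAt_tau`.
-/
import Mathlib
import Fermat.Agent.M59.Mazur.Val.RatioConjLeg
import Fermat.Agent.S44.Mono.NodeDictLeg
import Fermat.Agent.S44.Mono.Centre

set_option autoImplicit false
set_option linter.unusedSectionVars false
set_option linter.unusedVariables false
set_option linter.style.haveILetI false
set_option synthInstance.maxHeartbeats 400000
set_option maxHeartbeats 1000000

noncomputable section

namespace Fermat.Agent.M59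

open Polynomial ModularCurve AlgebraicCurve IntermediateField IsLocalRing
open Fermat.Agent.JT3 Fermat.Agent.SS Fermat.Agent.S35 Fermat.Agent.S24 Fermat.Agent.S44
  Fermat.Agent.S36 Fermat.Agent.S28

local notation "Qb" => AlgebraicClosure ℚ

section Abs

variable {E : Type*} [Field E]

/-- `1 + x` is a unit of `W` for `x ∈ 𝔪_W`. -/
theorem m59mz_vc_one_add (W : ValuationSubring E) {x : E} (hx : x ∈ W.nonunits) :
    1 + x ≠ 0 ∧ (1 + x)⁻¹ ∈ W := by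
  have huv : W.valuation (1 + x) = 1 := by
    have h1 : W.valuation x < W.valuation (1 : E) := by
      rw [map_one]
      exact (ValuationSubring.mem_nonunits_iff W).1 hx
    rw [Valuation.map_add_eq_of_lt_left _ h1, map_one]
  have hu0 : (1 + x) ≠ 0 := by
    intro h0
    rw [h0, map_zero] at huv
    exact zero_ne_one huv
  refine ⟨hu0, ?_⟩
  rw [← ValuationSubring.valuation_le_one_iff, map_inv₀, huv, inv_one]

/-- **`λ − 1` is a unit wherever `λ` and `j(q²)` are finite** (and `256` is a unit): the Legendre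
relation `256 (λ² − λ + 1)³ = J λ² (λ − 1)²`. -/
theorem m59mz_lam_sub_one_inv_mem (W : ValuationSubring E) {lam J : E}
    (hleg : 256 * (lam ^ 2 - lam + 1) ^ 3 = J * lam ^ 2 * (lam - 1) ^ 2)
    (hlam : lam ∈ W) (hJ : J ∈ W) (h256 : (256 : E)⁻¹ ∈ W) (h2560 : (256 : E) ≠ 0) :
    (lam - 1)⁻¹ ∈ W := by
  by_contra hcon
  have hn : lam - 1 ∈ W.nonunits := (m59mz_vc_nonunits_iff W _).2 (Or.inr hcon)
  have hx : (lam - 1) * lam ∈ W.nonunits := ssm_tp_nonunits_mul W hn hlam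
  obtain ⟨hu0, huinv⟩ := m59mz_vc_one_add W hx
  have hR : J * lam ^ 2 * (lam - 1) ^ 2 ∈ W.nonunits := by
    have : J * lam ^ 2 * (lam - 1) ^ 2 = (lam - 1) * (J * lam ^ 2 * (lam - 1)) := by ring
    rw [this]
    refine ssm_tp_nonunits_mul W hn ?_
    exact W.mul_mem _ _ (W.mul_mem _ _ hJ (pow_mem hlam 2)) (sub_mem hlam W.one_mem)
  rw [← hleg] at hR
  have hL : 256 * (lam ^ 2 - lam + 1) ^ 3 = 256 * (1 + (lam - 1) * lam) ^ 3 := by ring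
  rw [hL, m59mz_vc_nonunits_iff] at hR
  rcases hR with hR | hR
  · exact (mul_ne_zero h2560 (pow_ne_zero 3 hu0)) hR
  · apply hR
    rw [mul_inv, ← inv_pow]
    exact W.mul_mem _ _ h256 (pow_mem huinv 3)

end Abs

section Lab

variable (A : ValuationSubring Qb) {q : ℕ} [hq : Fact q.Prime] (hA : A.LiesOverPrime q)
  (N' : ℕ) [NeZero N'] [NeZero q] [NeZero (N' * q)] (hq2 : ¬ 2 ∣ q) (hqN' : ¬ q ∣ N')
  (L : IntermediateField ℚ Qb) [NumberField ↥L]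
  [IsDiscreteValuationRing ↥(A.comap (algebraMap ↥L Qb))]
  [CharP (ResidueField ↥(A.comap (algebraMap ↥L Qb))) q]
  {π : ↥(A.comap (algebraMap ↥L Qb))} (hπ : Irreducible π)
  (h2 : (2 : ↥L) ≠ 0) (ζ : ↥L) (hζ : IsPrimitiveRoot ζ N')

set_option hygiene false in
local notation "O1" => ValuationSubring.comap A (algebraMap ↥L Qb)

include hζ in
/-- the `λ`-chart lies in both Gauss valuation rings. -/
theorem m59mz_B1_le :
    (∀ b ∈ m59t1_B1 A N' q L, b ∈ ssm_gl_V1 O1 hπ N' q) ∧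
    (∀ b ∈ m59t1_B1 A N' q L, b ∈ ssm_gl_V2 O1 hπ N' q hq2 hqN') := by
  haveI := ssm_go_isScalarTower O1 (lg_E ↥L (N' * q))
  have hx : Transcendental ↥L (lg_lamE (L := ↥L) (N' * q)) :=
    lgf_lam_transcendental ↥L (N' * q) two_ne_zero
  have hprime : Prime (algebraMap ↥O1 (fc_chart ↥O1 ({lg_lamE N'} : Set ↥(lg_E ↥L N'))) π) :=
    (ssm_ll_prime ↥L N' hπ q (ssm_fln_q_mem ↥L O1 q) (ssm_fl_ne_two q hq2) hqN' ζ hζ).1
  have hyA : Transcendental ↥O1 (lg_lamE (L := ↥L) (N' * q)) := fc_ff_transcendental (L := ↥L) hx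
  haveI : IsIntegrallyClosed (Algebra.adjoin ↥O1 ({lg_lamE (N' * q)} : Set ↥(lg_E ↥L (N' * q)))) :=
    fc_ff_isIntegrallyClosed hyA
  haveI : FaithfulSMul (Algebra.adjoin ↥O1 ({lg_lamE (N' * q)} : Set ↥(lg_E ↥L (N' * q))))
      ↥(lg_E ↥L (N' * q)) :=
    (faithfulSMul_iff_algebraMap_injective _ _).2 Subtype.val_injective
  haveI := lgf_finite ↥L (N' * q)
  have H := ssm_gl_hyp O1 hπ N' q hq2 hqN' hprime
  have hC := ssm_tp_ff_chart (L := ↥L) hπ hx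
  exact ⟨fun b hb => hC.le H.over1 hb, fun b hb => hC.le H.over2 hb⟩

include hζ in
set_option maxHeartbeats 3200000 in
/-- **[TAU-LAB]**: two crossing points labelled by the same place `Q` (`j̄` finite at `Q`) are equal
or exchanged by the deck involution `τ`, which transports the toric datum. -/
theorem m59mz_lab_conj
    (hfix : ∀ z : ↥(lg_E ↥L (N' * q)), m59tt_tau ↥L (N' * q) h2 z = z →
      z ∈ Set.range (lg_phiE (L := ↥L) (N := N' * q)))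
    (Q : Place (s44e_kA A) ↥(s44e_FF A N'))
    (hj : jcr_j (k := s44e_kA A) N' ∈ Q.toValuationSubring)
    (𝔫 𝔫' : Ideal ↥(m59t1_B1 A N' q L)) (h𝔫 : 𝔫.IsPrime) (h𝔫' : 𝔫'.IsPrime)
    (h1𝔫 : m59t1_P1 A N' L hπ ≤ 𝔫) (h2𝔫 : m59t1_P2 A N' hq2 hqN' L hπ ≤ 𝔫)
    (h1𝔫' : m59t1_P1 A N' L hπ ≤ 𝔫') (h2𝔫' : m59t1_P2 A N' hq2 hqN' L hπ ≤ 𝔫')
    (hL : m59t1_Lab A hA N' hq2 hqN' L hπ 𝔫 Q) (hL' : m59t1_Lab A hA N' hq2 hqN' L hπ 𝔫' Q) :
    𝔫' = 𝔫 ∨ ∀ (m : ℕ) (f : ↥(lg_E ↥L (N' * q))) (c : (↥O1)ˣ),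
      m59t1_RatioAt A N' hq2 hqN' L hπ m 𝔫 h𝔫 f c →
        m59t1_RatioAt A N' hq2 hqN' L hπ m 𝔫' h𝔫' (m59tt_tau ↥L (N' * q) h2 f) c := by
  obtain ⟨𝒲, hext, e𝔫⟩ := hL
  obtain ⟨𝒲', hext', e𝔫'⟩ := hL'
  obtain ⟨hconst, hjE, hlamE, hB𝒱, -, -, -, -⟩ :=
    s44ndl_centre_A A hA N' hq2 hqN' L hπ ζ hζ Q 𝒲 hext hj
  obtain ⟨hconst', hjE', hlamE', hB𝒱', -, -, -, -⟩ :=
    s44ndl_centre_A A hA N' hq2 hqN' L hπ ζ hζ Q 𝒲' hext' hj
  set 𝒱 := s44ndl_V ↥L O1 hπ N' q hq2 hqN' 𝒲 with h𝒱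
  set 𝒱' := s44ndl_V ↥L O1 hπ N' q hq2 hqN' 𝒲' with h𝒱'
  -- the two valuation rings agree on the `τ`-fixed elements
  have hagree : ∀ z : ↥(lg_E ↥L (N' * q)),
      (m59tt_tau ↥L (N' * q) h2).toRingEquiv z = z → (z ∈ 𝒱 ↔ z ∈ 𝒱') := by
    intro z hz
    obtain ⟨x, rfl⟩ := hfix z hz
    exact (hext x).trans (hext' x).symm
  rcases m59mz_valConj (m59tt_tau ↥L (N' * q) h2).toRingEquiv
    (fun z => m59tt_tau_tau h2 z) 𝒱 𝒱' hagree with h | h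
  · left
    have hVV : 𝒱' = 𝒱 := ValuationSubring.ext _ _ h
    rw [← e𝔫, ← e𝔫']
    show ssm_tp_P _ 𝒱' = ssm_tp_P _ 𝒱
    rw [hVV]
  · right
    intro m f c hR
    have hτ𝒱 : ∀ z, m59tt_tau ↥L (N' * q) h2 z ∈ 𝒱' ↔ z ∈ 𝒱 := by
      intro z
      have := h (m59tt_tau ↥L (N' * q) h2 z)
      rw [this]
      show m59tt_tau ↥L (N' * q) h2 (m59tt_tau ↥L (N' * q) h2 z) ∈ 𝒱 ↔ z ∈ 𝒱
      rw [m59tt_tau_tau]
    -- `(λ − 1)⁻¹ ∈ 𝒱'`
    have hlam : ((lg_lamE (N' * q) : ↥(lg_E ↥L (N' * q))) - 1)⁻¹ ∈ 𝒱' := by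
      obtain ⟨u, hu⟩ := s44mz_exists_u O1 q hq2
      have h2560 : (256 : ↥(lg_E ↥L (N' * q))) ≠ 0 := by
        have : ((256 : ℕ) : ↥(lg_E ↥L (N' * q))) ≠ 0 := Nat.cast_ne_zero.2 (by norm_num)
        exact_mod_cast this
      have hu' : algebraMap ↥O1 ↥(lg_E ↥L (N' * q)) u = (256 : ↥(lg_E ↥L (N' * q)))⁻¹ := by
        have := congrArg (algebraMap ↥O1 ↥(lg_E ↥L (N' * q))) hu
        rw [map_mul, map_one, map_ofNat] at this
        exact eq_inv_of_mul_eq_one_left this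
      refine m59mz_lam_sub_one_inv_mem 𝒱' (s44mz_legE ↥L (N' * q)) hlamE' hjE' ?_ h2560
      rw [← hu']
      exact hconst' u
    obtain ⟨hB1, hB2⟩ := m59mz_B1_le A N' hq2 hqN' L hπ ζ hζ
    exact m59mz_ratioAt_tau A N' hq2 hqN' L hπ h2 m 𝒱 𝒱' hB𝒱 hB𝒱' hτ𝒱 𝔫 𝔫' h𝔫 h𝔫' e𝔫.symm e𝔫'.symm
      hB1 hB2 h1𝔫 h2𝔫 h1𝔫' h2𝔫' hlam f c hR

end Lab

end Fermat.Agent.M59
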