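/-
M59 / leaf 3 [TOR-SURJ], level `N' q q`: inputs of [TAU-INV2] (helper16, on the chief's assignment;
prefix `m59mz_`).

`τ₂ = m59tt_tau L (N' q q) h2` the deck involution of the Legendre cover `E2 = lg_E L (N' q q)`,
`B2 = fc_chart O {λ}` the `λ`-chart, `VA, VB, VC` the three vertical valuations (`VC` with
`s36asm_Third`), `PA, PB, PC` their centres on `B2`.

* `m59mz_B2_le`         : `B2 ⊆ VA, VB, VC`;
* `m59mz_tau2_chart_mem`: `τ₂ (B2) ⊆ (B2)_𝔫'` at every point `𝔫' = centre of 𝒱'` with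
                           `(λ − 1)⁻¹ ∈ 𝒱'`;
* **`m59mz_ratioCB_tau2`, `m59mz_ratioAC_tau2`** : for `𝔫, 𝔫'` the centres on `B2` of `𝒱` and
  `𝒱' = τ₂ 𝒱`, `(λ − 1)⁻¹ ∈ 𝒱'`:
  `m59t2_RatioCB … VC m 𝔫 h𝔫 f c → m59t2_RatioCB … VC m 𝔫' h𝔫' (τ₂ f) c` (same for `RatioAC`)
  (`m59mz_ratio_conj` + helper4's `m59tv2_tau_mem_VA/_VB/_VC`);
* `m59mz_lam2_sub_one_inv_mem` : `(λ − 1)⁻¹ ∈ 𝒱'` from `λ, j(q²) ∈ 𝒱'` and the constants `O ⊆ 𝒱'`.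
-/
import Mathlib
import Fermat.Agent.M59.Mazur.Val.TauLab
import Fermat.Agent.M59.SinkB.Tor.Defs2
import Fermat.Agent.M59.SinkB.Tor.TauGauss2
import Fermat.Agent.S36.Model.AsmLegLast

set_option autoImplicit false
set_option linter.unusedSectionVars false
set_option linter.unusedVariables false
set_option linter.style.haveILetI false
set_option synthInstance.maxHeartbeats 400000
set_option maxHeartbeats 1000000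

noncomputable section

namespace Fermat.Agent.M59

open Polynomial ModularCurve AlgebraicCurve IntermediateField IsLocalRing
open Fermat.Agent.JT3 Fermat.Agent.SS Fermat.Agent.S35 Fermat.Agent.S24 Fermat.Agent.S44
  Fermat.Agent.S36 Fermat.Agent.S28

local notation "Qb" => AlgebraicClosure ℚ

section Inst

variable (A : ValuationSubring Qb) {q : ℕ} [hq : Fact q.Prime] (hA : A.LiesOverPrime q)
  (N' : ℕ) [NeZero N'] [NeZero q] [NeZero (N' * q)] [NeZero (N' * q * q)]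
  (hq2 : ¬ 2 ∣ q) (hqN' : ¬ q ∣ N')
  (L : IntermediateField ℚ Qb) [NumberField ↥L]
  [IsDiscreteValuationRing ↥(A.comap (algebraMap ↥L Qb))]
  [CharP (ResidueField ↥(A.comap (algebraMap ↥L Qb))) q]
  (hπq : Irreducible ((q : ℕ) : ↥(A.comap (algebraMap ↥L Qb))))
  (h2 : (2 : ↥L) ≠ 0) (ζ : ↥L) (hζ : IsPrimitiveRoot ζ N')

set_option hygiene false in
local notation "O1" => ValuationSubring.comap A (algebraMap ↥L Qb)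

include hζ in
/-- the `λ`-chart of level `N' q q` lies in the three vertical valuation rings. -/
theorem m59mz_B2_le {VC : ValuationSubring ↥(lg_E ↥L (N' * q * q))}
    (T3 : s36asm_Third O1 hπq N' q hq2 hqN' VC) :
    (∀ b ∈ m59t2_B2 A N' q L, b ∈ s36i_VA O1 hπq (N' * q) q) ∧
    (∀ b ∈ m59t2_B2 A N' q L, b ∈ s36i_VB O1 hπq N' q hq2 hqN') ∧
    (∀ b ∈ m59t2_B2 A N' q L, b ∈ VC) := by
  haveI := ssm_go_isScalarTower O1 (lg_E ↥L (N' * q * q))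
  have hx : Transcendental ↥L (lg_lamE (L := ↥L) (N' * q * q)) :=
    lgf_lam_transcendental ↥L (N' * q * q) two_ne_zero
  have hprime : Prime (algebraMap ↥O1 (fc_chart ↥O1 ({lg_lamE N'} : Set ↥(lg_E ↥L N')))
      ((q : ℕ) : ↥O1)) :=
    (ssm_ll_prime ↥L N' hπq q (ssm_fln_q_mem ↥L O1 q) (ssm_fl_ne_two q hq2) hqN' ζ hζ).1
  have hyA : Transcendental ↥O1 (lg_lamE (L := ↥L) (N' * q * q)) :=
    fc_ff_transcendental (L := ↥L) hx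
  haveI : IsIntegrallyClosed
      (Algebra.adjoin ↥O1 ({lg_lamE (N' * q * q)} : Set ↥(lg_E ↥L (N' * q * q)))) :=
    fc_ff_isIntegrallyClosed hyA
  haveI : FaithfulSMul (Algebra.adjoin ↥O1 ({lg_lamE (N' * q * q)} : Set ↥(lg_E ↥L (N' * q * q))))
      ↥(lg_E ↥L (N' * q * q)) :=
    (faithfulSMul_iff_algebraMap_injective _ _).2 Subtype.val_injective
  haveI := lgf_finite ↥L (N' * q * q)
  obtain ⟨-, H3, -⟩ := s36asm_all_of_third O1 hπq N' q hq2 hqN' hprime T3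
  have hC := ssm_tp_ff_chart (L := ↥L) hπq hx
  exact ⟨fun b hb => hC.le (H3.ovr 0) hb, fun b hb => hC.le (H3.ovr 1) hb,
    fun b hb => hC.le (H3.ovr 2) hb⟩

/-- `τ₂` fixes the constants of `O`. -/
theorem m59mz_tau2_const (a : ↥O1) :
    m59tt_tau ↥L (N' * q * q) h2 (algebraMap ↥O1 ↥(lg_E ↥L (N' * q * q)) a) =
      algebraMap ↥O1 ↥(lg_E ↥L (N' * q * q)) a := by
  haveI := ssm_go_isScalarTower O1 (lg_E ↥L (N' * q * q))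
  rw [IsScalarTower.algebraMap_apply ↥O1 ↥L ↥(lg_E ↥L (N' * q * q))]
  exact (m59tt_tau ↥L (N' * q * q) h2).commutes _

/-- `τ₂ (B2) ⊆ (B2)_𝔫'` at the points where `λ − 1` is a unit. -/
theorem m59mz_tau2_chart_mem (𝒱' : ValuationSubring ↥(lg_E ↥L (N' * q * q)))
    (hB𝒱' : ∀ b ∈ m59t2_B2 A N' q L, b ∈ 𝒱')
    (𝔫' : Ideal ↥(m59t2_B2 A N' q L)) [h𝔫' : 𝔫'.IsPrime]
    (e𝔫' : 𝔫' = ssm_tp_P (m59t2_B2 A N' q L) 𝒱')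
    (hlam : ((lg_lamE (N' * q * q) : ↥(lg_E ↥L (N' * q * q))) - 1)⁻¹ ∈ 𝒱') :
    haveI := s36cp_chart_isFractionRing O1 (L := ↥L) (N' * q * q)
    ∀ b ∈ m59t2_B2 A N' q L,
      (m59tt_tau ↥L (N' * q * q) h2).toRingEquiv b ∈ ssl_locSub ↥(lg_E ↥L (N' * q * q)) 𝔫' := by
  haveI := s36cp_chart_isFractionRing O1 (L := ↥L) (N' * q * q)
  haveI := ssm_go_isScalarTower O1 (lg_E ↥L (N' * q * q))
  haveI := lgf_finite ↥L (N' * q * q)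
  haveI : IsIntegrallyClosed ↥(m59t2_B2 A N' q L) :=
    ssm_ths_chart_isIntegrallyClosed (A0 := ↥O1) (L := ↥L) _
  refine m59mz_rc_chart_loc (m59tt_tau ↥L (N' * q * q) h2).toRingEquiv
    (fun a => m59mz_tau2_const A N' L h2 a) _ 𝔫' ?_
  intro s hs
  rw [Set.mem_singleton_iff] at hs
  subst hs
  have hlamB : (lg_lamE (N' * q * q) : ↥(lg_E ↥L (N' * q * q))) ∈ m59t2_B2 A N' q L :=
    fc_adjoin_le_chart _ (Algebra.subset_adjoin (Set.mem_singleton _))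
  have hl1B : (lg_lamE (N' * q * q) : ↥(lg_E ↥L (N' * q * q))) - 1 ∈ m59t2_B2 A N' q L :=
    sub_mem hlamB (one_mem _)
  have hne := m59mz_lam_sub_one_ne_zero ↥L (N' * q * q)
  have hnot : (⟨_, hl1B⟩ : ↥(m59t2_B2 A N' q L)) ∉ 𝔫' := by
    rw [e𝔫', ssm_tp_mem_P hB𝒱', m59mz_vc_nonunits_iff, not_or, not_not]
    exact ⟨hne, hlam⟩
  have hτ : (m59tt_tau ↥L (N' * q * q) h2).toRingEquiv (lg_lamE (N' * q * q)) =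
      (lg_lamE (N' * q * q) : ↥(lg_E ↥L (N' * q * q))) *
        ((lg_lamE (N' * q * q) : ↥(lg_E ↥L (N' * q * q))) - 1)⁻¹ := by
    rw [eq_mul_inv_iff_mul_eq₀ hne]
    exact m59mz_tau_lam ↥L (N' * q * q) h2
  rw [hτ]
  refine (ssl_locSub ↥(lg_E ↥L (N' * q * q)) 𝔫').mul_mem ?_ ?_
  · exact (ssl_locSub ↥(lg_E ↥L (N' * q * q)) 𝔫').algebraMap_mem ⟨_, hlamB⟩
  · rw [ssl_mem_locSub]
    refine ⟨1, ⟨_, hl1B⟩, hnot, ?_⟩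
    show ((lg_lamE (N' * q * q) : ↥(lg_E ↥L (N' * q * q))) - 1)⁻¹ *
      ((lg_lamE (N' * q * q) : ↥(lg_E ↥L (N' * q * q))) - 1) = 1
    exact inv_mul_cancel₀ hne

include hq2 in
/-- `(λ − 1)⁻¹ ∈ 𝒱'` when `λ`, `j(q²)` and the constants of `O` lie in `𝒱'`. -/
theorem m59mz_lam2_sub_one_inv_mem (𝒱' : ValuationSubring ↥(lg_E ↥L (N' * q * q)))
    (hconst : ∀ a : ↥O1, algebraMap ↥O1 ↥(lg_E ↥L (N' * q * q)) a ∈ 𝒱')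
    (hlamE : (lg_lamE (N' * q * q) : ↥(lg_E ↥L (N' * q * q))) ∈ 𝒱')
    (hjE : s44mz_j2E ↥L (N' * q * q) ∈ 𝒱') :
    ((lg_lamE (N' * q * q) : ↥(lg_E ↥L (N' * q * q))) - 1)⁻¹ ∈ 𝒱' := by
  obtain ⟨u, hu⟩ := s44mz_exists_u O1 q hq2
  have h2560 : (256 : ↥(lg_E ↥L (N' * q * q))) ≠ 0 := by
    have : ((256 : ℕ) : ↥(lg_E ↥L (N' * q * q))) ≠ 0 := Nat.cast_ne_zero.2 (by norm_num)
    exact_mod_cast this
  have hu' : algebraMap ↥O1 ↥(lg_E ↥L (N' * q * q)) u =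
      (256 : ↥(lg_E ↥L (N' * q * q)))⁻¹ := by
    have := congrArg (algebraMap ↥O1 ↥(lg_E ↥L (N' * q * q))) hu
    rw [map_mul, map_one, map_ofNat] at this
    exact eq_inv_of_mul_eq_one_left this
  refine m59mz_lam_sub_one_inv_mem 𝒱' (s44mz_legE ↥L (N' * q * q)) hlamE hjE ?_ h2560
  rw [← hu']
  exact hconst u

variable (𝒱 𝒱' : ValuationSubring ↥(lg_E ↥L (N' * q * q)))
  (hB𝒱 : ∀ b ∈ m59t2_B2 A N' q L, b ∈ 𝒱) (hB𝒱' : ∀ b ∈ m59t2_B2 A N' q L, b ∈ 𝒱')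
  (hτ𝒱 : ∀ z, m59tt_tau ↥L (N' * q * q) h2 z ∈ 𝒱' ↔ z ∈ 𝒱)
  (𝔫 𝔫' : Ideal ↥(m59t2_B2 A N' q L)) (h𝔫 : 𝔫.IsPrime) (h𝔫' : 𝔫'.IsPrime)
  (e𝔫 : 𝔫 = ssm_tp_P (m59t2_B2 A N' q L) 𝒱) (e𝔫' : 𝔫' = ssm_tp_P (m59t2_B2 A N' q L) 𝒱')
  {VC : ValuationSubring ↥(lg_E ↥L (N' * q * q))}
  (T3 : s36asm_Third O1 hπq N' q hq2 hqN' VC)
  (hlam : ((lg_lamE (N' * q * q) : ↥(lg_E ↥L (N' * q * q))) - 1)⁻¹ ∈ 𝒱')

include hζ hB𝒱 hB𝒱' hτ𝒱 e𝔫 e𝔫' T3 hlam in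
/-- **the `(C, B)`-toric datum is transported by `τ₂`.** -/
theorem m59mz_ratioCB_tau2 (m : ℕ)
    (hC𝔫 : m59t2_PC A N' L VC ≤ 𝔫) (hB𝔫 : m59t2_PB A N' hq2 hqN' L hπq ≤ 𝔫)
    (hC𝔫' : m59t2_PC A N' L VC ≤ 𝔫') (hB𝔫' : m59t2_PB A N' hq2 hqN' L hπq ≤ 𝔫')
    (f : ↥(lg_E ↥L (N' * q * q))) (c : (↥O1)ˣ)
    (h : m59t2_RatioCB A N' hq2 hqN' L hπq VC m 𝔫 h𝔫 f c) :
    m59t2_RatioCB A N' hq2 hqN' L hπq VC m 𝔫' h𝔫' (m59tt_tau ↥L (N' * q * q) h2 f) c := by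
  haveI := s36cp_chart_isFractionRing O1 (L := ↥L) (N' * q * q)
  haveI := h𝔫
  haveI := h𝔫'
  obtain ⟨hBA, hBB, hBC⟩ := m59mz_B2_le A N' hq2 hqN' L hπq ζ hζ T3
  unfold m59t2_RatioCB at h ⊢
  exact m59mz_ratio_conj (m59t2_B2 A N' q L) (m59tt_tau ↥L (N' * q * q) h2).toRingEquiv 𝒱 𝒱'
    hB𝒱 hB𝒱' hτ𝒱 𝔫 𝔫' e𝔫 e𝔫' (m59mz_tau2_chart_mem A N' L h2 𝒱' hB𝒱' 𝔫' e𝔫' hlam)
    (fun a => m59mz_tau2_const A N' L h2 a) _ _ hBC hBB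
    (m59tv2_tau_mem_VC O1 hπq N' q hq2 hqN' h2 T3)
    (m59tv2_tau_mem_VB O1 hπq N' q hq2 hqN' h2)
    hC𝔫 hB𝔫 hC𝔫' hB𝔫' c h

include hζ hB𝒱 hB𝒱' hτ𝒱 e𝔫 e𝔫' T3 hlam in
/-- **the `(A, C)`-toric datum is transported by `τ₂`.** -/
theorem m59mz_ratioAC_tau2 (m : ℕ)
    (hA𝔫 : m59t2_PA A N' L hπq ≤ 𝔫) (hC𝔫 : m59t2_PC A N' L VC ≤ 𝔫)
    (hA𝔫' : m59t2_PA A N' L hπq ≤ 𝔫') (hC𝔫' : m59t2_PC A N' L VC ≤ 𝔫')
    (f : ↥(lg_E ↥L (N' * q * q))) (c : (↥O1)ˣ)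
    (h : m59t2_RatioAC A N' L hπq VC m 𝔫 h𝔫 f c) :
    m59t2_RatioAC A N' L hπq VC m 𝔫' h𝔫' (m59tt_tau ↥L (N' * q * q) h2 f) c := by
  haveI := s36cp_chart_isFractionRing O1 (L := ↥L) (N' * q * q)
  haveI := h𝔫
  haveI := h𝔫'
  obtain ⟨hBA, hBB, hBC⟩ := m59mz_B2_le A N' hq2 hqN' L hπq ζ hζ T3
  unfold m59t2_RatioAC at h ⊢
  exact m59mz_ratio_conj (m59t2_B2 A N' q L) (m59tt_tau ↥L (N' * q * q) h2).toRingEquiv 𝒱 𝒱'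
    hB𝒱 hB𝒱' hτ𝒱 𝔫 𝔫' e𝔫 e𝔫' (m59mz_tau2_chart_mem A N' L h2 𝒱' hB𝒱' 𝔫' e𝔫' hlam)
    (fun a => m59mz_tau2_const A N' L h2 a) _ _ hBA hBC
    (m59tv2_tau_mem_VA O1 hπq N' q h2)
    (m59tv2_tau_mem_VC O1 hπq N' q hq2 hqN' h2 T3)
    hA𝔫 hC𝔫 hA𝔫' hC𝔫' c h

end Inst

end Fermat.Agent.M59
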